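/-
Fermat/Agent/Jac/AffineDict87/Setup.lean  (helper87) -- S25 programme, brick B1b "Bridge.Classes".

Vocabulary for the dictionary between invertible sheaves on `C_A := pullback c (specStr A)` and
two-chart modules over `(A, A ⊗ B0, A ⊗ B1, A ⊗ B01)`:

* `cc.cover0 : TwoCover k C`, the two-cover of the curve itself; the chart rings
  `cc.B0`, `cc.B1`, `cc.B01` (type synonyms for `Γ(C, U0)`, `Γ(C, U1)`, `Γ(C, U0 ⊓ U1)` carrying
  GLOBAL `k`-algebra instances) and `cc.chart0 : TwoChart k cc.B0 cc.B1 cc.B01`;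
* `cc.P0 : cc.B1 →ₐ[k] k`, evaluation at the base point `ε`;
* `specOver A A' : SchemeHomOver (specStr A') (specStr A)` for `[Algebra A A'] [IsScalarTower k A A']`.
-/
import Mathlib
import Fermat.Agent.Jac.CurveCharts
import Fermat.Agent.Jac.TwoCoverGammaSetting

set_option autoImplicit false

open CategoryTheory CategoryTheory.Limits AlgebraicGeometry TopologicalSpace Opposite
open NeronModelInfra

universe u

noncomputable section

namespace Fermat.Agent.Jac

open TwoCoverGammaSetting

variable {k : Type u} [Field k] {C : Scheme.{u}} {c : C ⟶ Spec (CommRingCat.of k)}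
  {ε : SchemeHomOver (𝟙 (Spec (CommRingCat.of k))) c}

namespace CurveCharts

variable (cc : CurveCharts c ε)

/-- The two-cover of the curve `C` over `k` given by the charts. -/
def cover0 : TwoCover k C where
  str := sectionsRingHom c ⊤
  U0 := cc.U0
  U1 := cc.U1
  affine0 := cc.affine0
  affine1 := cc.affine1
  cover := cc.cover
  t := cc.t
  s := cc.s
  inter0 := cc.inter0
  inter1 := cc.inter1
  ts := cc.ts

/-- Functions on the first chart `U0` of the curve, as a `k`-algebra. -/
abbrev B0 : Type u := cc.cover0.R0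
/-- Functions on the second chart `U1` of the curve (the chart containing the base point). -/
abbrev B1 : Type u := cc.cover0.R1
/-- Functions on the overlap `U0 ⊓ U1`. -/
abbrev B01 : Type u := cc.cover0.R01

/-- The two-chart ring of the curve over `k`. -/
def chart0 : TwoChart k cc.B0 cc.B1 cc.B01 := cc.cover0.chart

theorem base_le : (⊤ : (Spec (CommRingCat.of k)).Opens) ≤ ε.1 ⁻¹ᵁ cc.U1 := by
  rw [cc.base_mem]

/-- Evaluation at the base point, as a ring homomorphism. -/
def P0hom : cc.B1 →+* k :=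
  (ε.1.appLE cc.U1 ⊤ cc.base_le ≫ (Scheme.ΓSpecIso (CommRingCat.of k)).hom).hom

theorem P0hom_algebraMap (a : k) : cc.P0hom (algebraMap k cc.B1 a) = a := by
  have h0 : c.appTop ≫ ε.1.appLE ⊤ ⊤ le_top = 𝟙 _ := by
    have h := (Scheme.Hom.comp_appLE ε.1 c ⊤ ⊤ le_top).symm
    have e : ε.1 ≫ c = 𝟙 _ := ε.2
    rw [e] at h
    refine h.trans ?_
    simp [Scheme.Hom.appLE]
  have h1 : (Scheme.ΓSpecIso (CommRingCat.of k)).inv ≫ c.appTop ≫
      C.presheaf.map (homOfLE (le_top : (⊤ : C.Opens) ≤ ⊤)).op ≫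
      C.presheaf.map (homOfLE (le_top : cc.U1 ≤ ⊤)).op ≫
      ε.1.appLE cc.U1 ⊤ cc.base_le ≫ (Scheme.ΓSpecIso (CommRingCat.of k)).hom = 𝟙 _ := by
    rw [Scheme.Hom.map_appLE_assoc, Scheme.Hom.map_appLE_assoc, reassoc_of% h0]
    simp
  exact congrArg (fun f => f.hom a) h1

/-- Evaluation at the base point `ε`, a `k`-algebra homomorphism `B1 → k`. -/
def P0 : cc.B1 →ₐ[k] k :=
  { cc.P0hom with commutes' := cc.P0hom_algebraMap }

theorem P0_apply (b : cc.B1) : cc.P0 b = cc.P0hom b := rfl

/-- The coordinate `s` vanishes at the base point. -/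
theorem P0_s : cc.P0 cc.chart0.s = 0 := by
  have h : (ε.1.appLE cc.U1 ⊤ cc.base_le).hom cc.s = 0 := by
    have h1 : ε.1.appLE cc.U1 ⊤ cc.base_le =
        ε.1.app cc.U1 ≫ (Spec (CommRingCat.of k)).presheaf.map (homOfLE cc.base_le).op := rfl
    rw [h1]
    change ((Spec (CommRingCat.of k)).presheaf.map (homOfLE cc.base_le).op).hom
      ((ε.1.app cc.U1).hom cc.s) = 0
    rw [cc.s_base, map_zero]
  change (Scheme.ΓSpecIso (CommRingCat.of k)).hom.hom ((ε.1.appLE cc.U1 ⊤ cc.base_le).hom cc.s) = 0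
  rw [h, map_zero]

end CurveCharts

end Fermat.Agent.Jac
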