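/-
Fermat/Agent/Jac/AffineDict87/Statement.lean  (helper87) -- S25 programme, brick B1b "Bridge.Classes".

THE INTERFACE between the scheme side and the algebra side of the S25 programme: the statement of
the dictionary between invertible sheaves on `C_A := pullback c (specStr A)` (`A` any `k`-algebra)
and line two-chart modules over the TENSOR rings `(A, A ⊗[k] B0, A ⊗[k] B1, A ⊗[k] B01)`.

`structure AffineDictionary cc` packages a relation `Corr A M L`
("the line `L` is the two-chart module of sections of the invertible sheaf `M`") with
* well-definedness / injectivity on isomorphism classes (`iso_iff`, `congr_sheaf`, `congr_line`),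
* surjectivity both ways (`exists_line`, `exists_sheaf`),
* the structure sheaf corresponds to `QC2.unit` (`unit`),
* naturality in `A`: pullback along `baseChangeSnd` (frozen) corresponds to chartwise base change,
  expressed with helper85's relation `JSmooth85Alg.LiftData` and helper75's tensor-ring instances
  (`baseChange`),
* rigidifiability at the base point `ε` corresponds to `A ⊗[A ⊗ B1] N1 ≃ A` (`rigidified_iff`),
* `Γ(C_A, 𝒪) = A` (`gamma_top`).

Consumers (R1, R2, B2, Q1, A6) take `(D : AffineDictionary cc)` as a hypothesis; brick B1b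
constructs it (file `AffineDict87/Main.lean`, later).
-/
import Mathlib
import Fermat.Agent.Jac.AffineDict87.Setup
import Fermat.Agent.Jac.BaseChange75.Rings
import Fermat.Agent.Jac.JSmooth85Alg
import Fermat.Agent.Jac.BridgeCharts33Nat

set_option autoImplicit false

open CategoryTheory CategoryTheory.Limits AlgebraicGeometry TopologicalSpace Opposite
open NeronModelInfra AlgebraicGeometry.RelPicard TensorProduct

universe u

noncomputable section

namespace Fermat.Agent.Jac

open scoped Fermat.Agent.Jac.BaseChange75
open TwoCoverGammaSetting BridgeCharts33 JSmooth85Alg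

variable {k : Type u} [Field k] {C : Scheme.{u}} {c : C ⟶ Spec (CommRingCat.of k)}
  {ε : SchemeHomOver (𝟙 (Spec (CommRingCat.of k))) c}

namespace CurveCharts

variable (cc : CurveCharts c ε)

/-- Two-chart modules on `C_A`: over the tensor rings `(A, A ⊗[k] B0, A ⊗[k] B1, A ⊗[k] B01)`. -/
abbrev QCA (A : Type u) [CommRing A] [Algebra k A] : Type (u + 1) :=
  QC2 A (A ⊗[k] cc.B0) (A ⊗[k] cc.B1) (A ⊗[k] cc.B01)

/-- The two-chart ring of `C_A`. -/
abbrev chartA (A : Type u) [CommRing A] [Algebra k A] :
    TwoChart A (A ⊗[k] cc.B0) (A ⊗[k] cc.B1) (A ⊗[k] cc.B01) :=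
  cc.chart0.baseChange A

variable (A : Type u) [CommRing A] [Algebra k A]

/-- Evaluation at the base point over `A`: `A ⊗[k] B1 → A`, `a ⊗ b ↦ a * b(ε)`. -/
def evalA : A ⊗[k] cc.B1 →ₐ[A] A :=
  Algebra.TensorProduct.lift (AlgHom.id A A) ((Algebra.ofId k A).comp cc.P0)
    (fun _ _ => Commute.all _ _)

@[simp]
theorem evalA_tmul (a : A) (b : cc.B1) :
    cc.evalA A (a ⊗ₜ[k] b) = a * algebraMap k A (cc.P0 b) := by
  simp [evalA, Algebra.ofId_apply]

/-- `A` as an algebra over `A ⊗[k] B1` through evaluation at the base point (activate with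
`letI`). -/
@[reducible] def algEval : Algebra (A ⊗[k] cc.B1) A := (cc.evalA A).toRingHom.toAlgebra

/-- The pullback of the `A ⊗[k] B1`-module `N` along the base point section `A ⊗[k] B1 → A` is
free of rank one over `A`.  (CAUTION: under `letI := cc.algEval A` instance search finds
`Algebra.TensorProduct.leftAlgebra : Algebra (A ⊗[k] B1) (A ⊗[k] B01)` before helper75's
`algRight`; so elaborate everything that mentions a `cc.QCA A` OUTSIDE the scope of that `letI`,
as done here.) -/
def RigidMod (N : Type u) [AddCommGroup N] [Module (A ⊗[k] cc.B1) N] : Prop :=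
  letI := cc.algEval A
  Nonempty (A ⊗[A ⊗[k] cc.B1] N ≃ₗ[A] A)

variable {A}

/-- The two-chart module `L` is rigidifiable: its pullback along the base point section
`A ⊗[k] B1 → A` is free of rank one over `A`. -/
def Rigidifiable (L : cc.QCA A) : Prop := cc.RigidMod A L.N1

end CurveCharts

/-- **The dictionary** between invertible sheaves on `C_A` and line two-chart modules over the
tensor rings, for all `k`-algebras `A`, natural in `A`. -/
structure AffineDictionary (cc : CurveCharts c ε) where
  /-- `Corr A M L`: `M` is an invertible sheaf on `C_A`, `L` is a line, and `L` is (isomorphic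
  to) the two-chart module of sections of `M` over the two charts of `C_A`. -/
  Corr : ∀ (A : Type u) [CommRing A] [Algebra k A], (XA c A).Modules → cc.QCA A → Prop
  isInvertible : ∀ {A : Type u} [CommRing A] [Algebra k A] {M : (XA c A).Modules} {L : cc.QCA A},
    Corr A M L → Scheme.Modules.IsInvertible M
  isLine : ∀ {A : Type u} [CommRing A] [Algebra k A] {M : (XA c A).Modules} {L : cc.QCA A},
    Corr A M L → L.IsLine
  /-- every invertible sheaf has a two-chart module -/
  exists_line : ∀ {A : Type u} [CommRing A] [Algebra k A] (M : (XA c A).Modules),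
    Scheme.Modules.IsInvertible M → ∃ L : cc.QCA A, Corr A M L
  /-- every line is the two-chart module of an invertible sheaf -/
  exists_sheaf : ∀ {A : Type u} [CommRing A] [Algebra k A] (L : cc.QCA A),
    L.IsLine → ∃ M : (XA c A).Modules, Corr A M L
  congr_sheaf : ∀ {A : Type u} [CommRing A] [Algebra k A] {M M' : (XA c A).Modules}
    {L : cc.QCA A}, Corr A M L → (M ≅ M') → Corr A M' L
  congr_line : ∀ {A : Type u} [CommRing A] [Algebra k A] {M : (XA c A).Modules}
    {L L' : cc.QCA A}, Corr A M L → QC2.Iso L L' → Corr A M L'
  /-- the correspondence is a bijection on isomorphism classes -/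
  iso_iff : ∀ {A : Type u} [CommRing A] [Algebra k A] {M M' : (XA c A).Modules}
    {L L' : cc.QCA A}, Corr A M L → Corr A M' L' →
    (Nonempty (M ≅ M') ↔ Nonempty (QC2.Iso L L'))
  /-- the structure sheaf corresponds to the unit two-chart module -/
  unit : ∀ (A : Type u) [CommRing A] [Algebra k A],
    Corr A (SheafOfModules.unit (XA c A).ringCatSheaf) (QC2.unit (A := A))
  /-- naturality in `A`: pullback along `C_{A'} ⟶ C_A` is chartwise base change -/
  baseChange : ∀ {A A' : Type u} [CommRing A] [Algebra k A] [CommRing A'] [Algebra k A']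
    [Algebra A A'] [IsScalarTower k A A'] {M : (XA c A).Modules} {L : cc.QCA A} {L' : cc.QCA A'},
    Corr A M L → LiftData L L' →
    Corr A' ((Scheme.Modules.pullback (bcs c (IsScalarTower.toAlgHom k A A'))).obj M) L'
  /-- rigidifiability along the base point section -/
  rigidified_iff : ∀ {A : Type u} [CommRing A] [Algebra k A] {M : (XA c A).Modules}
    {L : cc.QCA A}, Corr A M L →
    (Nonempty ((Scheme.Modules.pullback (rigSection c (specStr A) ε)).obj M ≅
        SheafOfModules.unit (Spec (CommRingCat.of A)).ringCatSheaf) ↔ cc.Rigidifiable L)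
  /-- global functions on `C_A` are `A` -/
  gamma_top : ∀ (A : Type u) [CommRing A] [Algebra k A],
    Function.Bijective (secHom (pr2 c A) (⊤ : (XA c A).Opens))

end Fermat.Agent.Jac
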