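/-
Fermat/Agent/Jac/AffineDict87/PbSec.lean  (helper87) -- S25 programme, brick B1b.

The canonical map on sections `Γ(M, U) → Γ(f^* M, V)` for a morphism of schemes `f : Y ⟶ X`,
a sheaf of modules `M` on `X` and opens `V ≤ f ⁻¹ᵁ U`: the unit of the adjunction
`pullback f ⊣ pushforward f` on `U`, followed by restriction to `V`.
Basic properties: semilinearity, naturality in the opens and in `M`.
-/
import Mathlib
import Fermat.Agent.Jac.ModGlue88.Basic

set_option autoImplicit false

open CategoryTheory AlgebraicGeometry TopologicalSpace Opposite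

universe u

noncomputable section

namespace Fermat.Agent.Jac.PbSec87

open Fermat.Agent.Jac.ModGlue88

variable {X Y : Scheme.{u}}

theorem res_self' (M : X.Modules) {U : X.Opens} (h : U ≤ U) (x : Γ(M, U)) : res M h x = x :=
  res_self M U x

/-- The action of a morphism of sheaves of modules on sections, as an additive map. -/
def app {M N : X.Modules} (φ : M ⟶ N) (U : X.Opens) : Γ(M, U) →+ Γ(N, U) := (φ.app U).hom

theorem app_smul {M N : X.Modules} (φ : M ⟶ N) (U : X.Opens) (r : Γ(X, U)) (x : Γ(M, U)) :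
    app φ U (r • x) = r • app φ U x :=
  Scheme.Modules.Hom.app_smul φ r x

/-- Naturality of a morphism of sheaves of modules with respect to restriction. -/
theorem app_res {M N : X.Modules} (φ : M ⟶ N) {U U' : X.Opens} (h : U' ≤ U) (x : Γ(M, U)) :
    app φ U' (res M h x) = res N h (app φ U x) := by
  have := φ.mapPresheaf.naturality (homOfLE h).op
  exact congrArg (fun g => g.hom x) this

theorem app_comp {M N K : X.Modules} (φ : M ⟶ N) (ψ : N ⟶ K) (U : X.Opens) (x : Γ(M, U)) :
    app (φ ≫ ψ) U x = app ψ U (app φ U x) := rfl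

theorem app_id (M : X.Modules) (U : X.Opens) (x : Γ(M, U)) : app (𝟙 M) U x = x := rfl

variable (f : Y ⟶ X)

/-- The unit of `pullback f ⊣ pushforward f` on sections over `U`. -/
def unitSec (M : X.Modules) (U : X.Opens) :
    Γ(M, U) →+ Γ((Scheme.Modules.pullback f).obj M, f ⁻¹ᵁ U) :=
  (((Scheme.Modules.pullbackPushforwardAdjunction f).unit.app M).app U).hom

theorem unitSec_smul (M : X.Modules) (U : X.Opens) (r : Γ(X, U)) (x : Γ(M, U)) :
    unitSec f M U (r • x) = (f.app U).hom r • unitSec f M U x :=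
  Scheme.Modules.Hom.app_smul
    (φ := (Scheme.Modules.pullbackPushforwardAdjunction f).unit.app M) r x

theorem unitSec_res (M : X.Modules) {U U' : X.Opens} (h : U' ≤ U) (x : Γ(M, U)) :
    unitSec f M U' (res M h x) =
      res ((Scheme.Modules.pullback f).obj M) (Scheme.Hom.preimage_mono f h) (unitSec f M U x) :=
  app_res ((Scheme.Modules.pullbackPushforwardAdjunction f).unit.app M) h x

theorem unitSec_naturality {M M' : X.Modules} (φ : M ⟶ M') (U : X.Opens) (x : Γ(M, U)) :
    app ((Scheme.Modules.pullback f).map φ) (f ⁻¹ᵁ U) (unitSec f M U x) =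
      unitSec f M' U (app φ U x) := by
  have := (Scheme.Modules.pullbackPushforwardAdjunction f).unit.naturality φ
  have h2 := congrArg (fun g => (Scheme.Modules.Hom.app g U).hom x) this
  exact h2.symm

/-- The canonical map `Γ(M, U) → Γ(f^* M, V)` for `V ≤ f ⁻¹ᵁ U`. -/
def pbSec (M : X.Modules) (U : X.Opens) (V : Y.Opens) (e : V ≤ f ⁻¹ᵁ U) :
    Γ(M, U) →+ Γ((Scheme.Modules.pullback f).obj M, V) :=
  (res ((Scheme.Modules.pullback f).obj M) e).comp (unitSec f M U)

theorem pbSec_apply (M : X.Modules) (U : X.Opens) (V : Y.Opens) (e : V ≤ f ⁻¹ᵁ U) (x : Γ(M, U)) :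
    pbSec f M U V e x = res ((Scheme.Modules.pullback f).obj M) e (unitSec f M U x) := rfl

/-- `pbSec` is semilinear with respect to `f.appLE U V e`. -/
theorem pbSec_smul (M : X.Modules) (U : X.Opens) (V : Y.Opens) (e : V ≤ f ⁻¹ᵁ U)
    (r : Γ(X, U)) (x : Γ(M, U)) :
    pbSec f M U V e (r • x) = (f.appLE U V e).hom r • pbSec f M U V e x := by
  rw [pbSec_apply, pbSec_apply, unitSec_smul, res_smul]
  rfl

/-- `pbSec` commutes with restriction of sections. -/
theorem pbSec_res (M : X.Modules) {U U' : X.Opens} {V V' : Y.Opens} (e : V ≤ f ⁻¹ᵁ U)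
    (e' : V' ≤ f ⁻¹ᵁ U') (hU : U' ≤ U) (hV : V' ≤ V) (x : Γ(M, U)) :
    res ((Scheme.Modules.pullback f).obj M) hV (pbSec f M U V e x) =
      pbSec f M U' V' e' (res M hU x) := by
  rw [pbSec_apply, pbSec_apply, unitSec_res, res_res, res_res]

/-- `pbSec` is natural in the sheaf of modules. -/
theorem pbSec_naturality {M M' : X.Modules} (φ : M ⟶ M') (U : X.Opens) (V : Y.Opens)
    (e : V ≤ f ⁻¹ᵁ U) (x : Γ(M, U)) :
    app ((Scheme.Modules.pullback f).map φ) V (pbSec f M U V e x) =
      pbSec f M' U V e (app φ U x) := by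
  rw [pbSec_apply, pbSec_apply, app_res, unitSec_naturality]

end Fermat.Agent.Jac.PbSec87
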