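/-
Fermat/Agent/Jac/AffineDict87/PbTilde.lean  (helper87) -- S25 programme, brick B1b.

The canonical map on sections of a pullback, on affine schemes: under helper41's
`pullbackTildeIso φ : (Spec φ)^* (N~) ≅ (S ⊗ N)~` the canonical map
`N = Γ(N~, ⊤) → Γ((Spec φ)^* N~, ⊤)` is `n ↦ 1 ⊗ n`  (`pbSec_tilde`).
-/
import Mathlib
import Fermat.Agent.Jac.TildePullback
import Fermat.Agent.Jac.AffineDict87.PbSec

set_option autoImplicit false

open CategoryTheory AlgebraicGeometry TopologicalSpace Opposite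

universe u

noncomputable section

namespace Fermat.Agent.Jac.PbSec87

open TildePullback

variable {X Y : Scheme.{u}}
variable {R S : CommRingCat.{u}} (φ : R ⟶ S) (N : ModuleCat.{u} R)

/-- the left adjunction in helper41's `pullbackTildeIso`. -/
def adjL : tilde.functor R ⋙ Scheme.Modules.pullback (Spec.map φ) ⊣
    Scheme.Modules.pushforward (Spec.map φ) ⋙ moduleSpecΓFunctor (R := R) :=
  (tilde.adjunction (R := R)).comp (Scheme.Modules.pullbackPushforwardAdjunction (Spec.map φ))

/-- the right adjunction in helper41's `pullbackTildeIso`. -/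
def adjR : ModuleCat.extendScalars φ.hom ⋙ tilde.functor S ⊣
    Scheme.Modules.pushforward (Spec.map φ) ⋙ moduleSpecΓFunctor (R := R) :=
  ((ModuleCat.extendRestrictScalarsAdj φ.hom).comp (tilde.adjunction (R := S))).ofNatIsoRight
    (pushforwardΓIso φ).symm

theorem pullbackTildeIso_eq : pullbackTildeIso φ = (adjL φ).leftAdjointUniq (adjR φ) := rfl

theorem unit_eq :
    (adjL φ).unit.app N ≫ (Scheme.Modules.pushforward (Spec.map φ) ⋙ moduleSpecΓFunctor (R := R)).map
      ((pullbackTildeIso φ).hom.app N) = (adjR φ).unit.app N :=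
  Adjunction.unit_leftAdjointUniq_hom_app (adjL φ) (adjR φ) N



theorem hA (n : N) : (tilde.adjunction.unit.app N).hom n = (tilde.toOpen N ⊤).hom n := rfl

theorem hB {P Q : (Spec R).Modules} (ψ : P ⟶ Q) (y : Γ(P, ⊤)) :
    (moduleSpecΓFunctor.map ψ).hom y = app ψ ⊤ y := rfl

theorem hC {P Q : (Spec S).Modules} (ψ : P ⟶ Q) (y : Γ(P, ⊤)) :
    ((Scheme.Modules.pushforward (Spec.map φ) ⋙ moduleSpecΓFunctor (R := R)).map ψ).hom y =
      app ψ ⊤ y := rfl

theorem hD (P : (Spec S).Modules) (y : Γ(P, ⊤)) :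
    ((pushforwardΓIso φ).symm.hom.app P).hom y = y := rfl

open ChangeOfRings in
theorem hE (n : N) : ((ModuleCat.extendRestrictScalarsAdj φ.hom).unit.app N).hom n =
    (1 : S) ⊗ₜ[R, φ.hom] n := rfl

theorem pbSec_top (f : Y ⟶ X) (M : X.Modules) (x : Γ(M, ⊤)) :
    pbSec f M ⊤ ⊤ le_top x = unitSec f M ⊤ x :=
  res_self' _ _ _

open ChangeOfRings in
/-- **Key identity on `Spec`.** Under `pullbackTildeIso`, the canonical map on global sections
`N = Γ(N~) → Γ((Spec φ)^* N~) ≅ Γ((S ⊗ N)~) = S ⊗ N` is `n ↦ 1 ⊗ n`. -/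
theorem pbSec_tilde (n : N) :
    app ((pullbackTildeIso φ).hom.app N) ⊤
        (pbSec (Spec.map φ) ((tilde.functor R).obj N) ⊤ ⊤ le_top ((tilde.toOpen N ⊤).hom n)) =
      (tilde.toOpen ((ModuleCat.extendScalars φ.hom).obj N) ⊤).hom
        ((1 : S) ⊗ₜ[R, φ.hom] n) := by
  have := unit_eq φ N
  unfold adjL adjR at this
  rw [Adjunction.comp_unit_app] at this
  simp only [Adjunction.ofNatIsoRight_unit] at this
  rw [NatTrans.comp_app, Adjunction.comp_unit_app] at this
  have h2 := congrArg (fun g => g.hom n) this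
  simp only [ModuleCat.hom_comp, LinearMap.comp_apply] at h2
  refine Eq.trans (congrArg _ (pbSec_top (Spec.map φ) ((tilde.functor R).obj N) _)) ?_
  exact h2

end Fermat.Agent.Jac.PbSec87
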