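/-
Fermat/Agent/Jac/AffineDict87/PbAffine.lean  (helper87) -- S25 programme, brick B1b.

**Sections of a pullback over affine opens.**  For a morphism of schemes `f : Y ⟶ X`, affine opens
`U ⊆ X`, `V ⊆ Y` with `V ≤ f ⁻¹ᵁ U` and a quasi-coherent sheaf of modules `M` on `X`, the canonical
map `pbSec f M U V e : Γ(M, U) → Γ(f^* M, V)` is a base change along
`f.appLE U V e : Γ(X, U) → Γ(Y, V)`.
-/
import Mathlib
import Fermat.Agent.Jac.AffineDict87.PbTilde
import Fermat.Agent.Jac.AffineDict87.PbRestrict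
import Fermat.Agent.Jac.AffineSections40
import Fermat.Agent.Jac.AffineDict34.ExtendScalars

set_option autoImplicit false
set_option linter.unusedSectionVars false

open CategoryTheory AlgebraicGeometry TopologicalSpace Opposite

universe u

noncomputable section

namespace Fermat.Agent.Jac.PbSec87

open Fermat.Agent.Jac.ModGlue88 Fermat.Agent.Jac.AffineSections40 TildePullback Scheme.Modules

variable {X Y : Scheme.{u}} (f : Y ⟶ X) {U : X.Opens} {V : Y.Opens}
  (hU : IsAffineOpen U) (hV : IsAffineOpen V) (e : V ≤ f ⁻¹ᵁ U)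
  (M : X.Modules) [M.IsQuasicoherent]

theorem sqAff : hV.fromSpec ≫ f = Spec.map (f.appLE U V e) ≫ hU.fromSpec :=
  (hU.SpecMap_appLE_fromSpec f hV e).symm

/-- the module of sections of `M` over `U`, as the global sections of the restriction of `M` to
`Spec Γ(X, U)`. -/
abbrev NAff : ModuleCat.{u} Γ(X, U) := moduleSpecΓFunctor.obj (M.restrict hU.fromSpec)

theorem isIso_fromTildeΓ_restrict :
    IsIso (Scheme.Modules.fromTildeΓ (R := Γ(X, U)) (M.restrict hU.fromSpec)) := by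
  have : SheafOfModules.IsQuasicoherent (R := (Spec Γ(X, U)).ringCatSheaf)
      (M.restrict hU.fromSpec) :=
    Scheme.Modules.isQuasicoherent_restrictFunctor hU.fromSpec M
  infer_instance

/-- the restriction of `M` to `Spec Γ(X, U)` is the tilde of its global sections. -/
def aAff : (tilde.functor Γ(X, U)).obj (NAff hU M) ≅ M.restrict hU.fromSpec :=
  @asIso _ _ _ _ (Scheme.Modules.fromTildeΓ (R := Γ(X, U)) (M.restrict hU.fromSpec))
    (isIso_fromTildeΓ_restrict hU M)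

theorem aAff_hom :
    (aAff hU M).hom = Scheme.Modules.fromTildeΓ (R := Γ(X, U)) (M.restrict hU.fromSpec) := rfl

/-- the restriction of `f^* M` to `Spec Γ(Y, V)` is the tilde of the base change. -/
def sheafIsoAff :
    (tilde.functor Γ(Y, V)).obj ((ModuleCat.extendScalars (f.appLE U V e).hom).obj (NAff hU M)) ≅
      (restrictFunctor hV.fromSpec).obj ((pullback f).obj M) :=
  ((pullbackTildeIso (f.appLE U V e)).app (NAff hU M)).symm ≪≫
    (pullback (Spec.map (f.appLE U V e))).mapIso (aAff hU M) ≪≫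
    ((resPbIso f hU.fromSpec hV.fromSpec (Spec.map (f.appLE U V e)) (sqAff f hU hV e)).app M).symm

theorem app_inv_hom {Z : Scheme.{u}} {A B : Z.Modules} (i : A ≅ B) (W : Z.Opens) (z : Γ(A, W)) :
    app i.inv W (app i.hom W z) = z := by
  rw [← app_comp, i.hom_inv_id, app_id]

theorem app_hom_inv {Z : Scheme.{u}} {A B : Z.Modules} (i : A ≅ B) (W : Z.Opens) (z : Γ(B, W)) :
    app i.hom W (app i.inv W z) = z := by
  rw [← app_comp, i.inv_hom_id, app_id]

/-- the global sections of the restriction of `f^* M` to `Spec Γ(Y, V)` are the base change of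
the sections of `M` over `U`. -/
def gammaIsoAff :
    (ModuleCat.extendScalars (f.appLE U V e).hom).obj (NAff hU M) ≅
      moduleSpecΓFunctor.obj ((restrictFunctor hV.fromSpec).obj ((pullback f).obj M)) :=
  tilde.isoTop _ ≪≫
    (moduleSpecΓFunctor (R := Γ(Y, V))).mapIso (sheafIsoAff f hU hV e M)

theorem top_le_preimage_fromSpec : (⊤ : (Spec Γ(X, U)).Opens) ≤ hU.fromSpec ⁻¹ᵁ U := by
  rw [hU.fromSpec_preimage_self]

include e in
theorem top_le_preimage_fromSpec' :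
    (⊤ : (Spec Γ(Y, V)).Opens) ≤ hV.fromSpec ⁻¹ᵁ f ⁻¹ᵁ U := by
  have h1 : hV.fromSpec ⁻¹ᵁ V ≤ hV.fromSpec ⁻¹ᵁ f ⁻¹ᵁ U := Scheme.Hom.preimage_mono _ e
  rwa [hV.fromSpec_preimage_self] at h1

open ChangeOfRings in
theorem gammaIso_s1 (n : NAff hU M) :
    (gammaIsoAff f hU hV e M).hom.hom
        ((1 : Γ(Y, V)) ⊗ₜ[Γ(X, U), (f.appLE U V e).hom] n) =
      app (sheafIsoAff f hU hV e M).hom ⊤
        ((tilde.toOpen ((ModuleCat.extendScalars (f.appLE U V e).hom).obj (NAff hU M)) ⊤).hom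
          ((1 : Γ(Y, V)) ⊗ₜ[Γ(X, U), (f.appLE U V e).hom] n)) := rfl

theorem gammaIso_s4 (n : NAff hU M) :
    app (aAff hU M).hom ⊤ ((tilde.toOpen (NAff hU M) ⊤).hom n) = n := by
  have := Scheme.Modules.toOpen_fromTildeΓ_app (R := Γ(X, U)) (M.restrict hU.fromSpec) ⊤
  have h2 := congrArg (fun g => g.hom n) this
  refine Eq.trans h2 ?_
  exact res_self' (M.restrict hU.fromSpec) le_top n

theorem gammaIso_s6 (x : Γ(M, U)) :
    res M ((hU.fromSpec.image_mono (top_le_preimage_fromSpec hU)).trans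
      (hU.fromSpec.image_preimage_le U)) x = secEquivTop hU M x := rfl

theorem gammaIso_s7 (x : Γ(M, U)) :
    pbSec f M U (hV.fromSpec ''ᵁ ⊤)
      ((hV.fromSpec.image_mono (top_le_preimage_fromSpec' f hV e)).trans
        (hV.fromSpec.image_preimage_le (f ⁻¹ᵁ U))) x =
      secEquivTop hV ((pullback f).obj M) (pbSec f M U V e x) := by
  rw [secEquivTop_apply]
  have := pbSec_res f M e ((hV.fromSpec.image_mono (top_le_preimage_fromSpec' f hV e)).trans
      (hV.fromSpec.image_preimage_le (f ⁻¹ᵁ U))) (le_refl U)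
      (le_of_eq (fromSpec_image_top hV)) x
  rw [res_self] at this
  exact this.symm

open ChangeOfRings in
theorem gammaIso_t1 (n : NAff hU M) :
    app ((pullbackTildeIso (f.appLE U V e)).app (NAff hU M)).inv ⊤
      ((tilde.toOpen ((ModuleCat.extendScalars (f.appLE U V e).hom).obj (NAff hU M)) ⊤).hom
        ((1 : Γ(Y, V)) ⊗ₜ[Γ(X, U), (f.appLE U V e).hom] n)) =
      pbSec (Spec.map (f.appLE U V e)) ((tilde.functor Γ(X, U)).obj (NAff hU M)) ⊤ ⊤ le_top
        ((tilde.toOpen (NAff hU M) ⊤).hom n) := by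
  have s2 := pbSec_tilde (f.appLE U V e) (NAff hU M) n
  refine (congrArg _ s2.symm).trans ?_
  exact app_inv_hom ((pullbackTildeIso (f.appLE U V e)).app (NAff hU M)) ⊤ _

theorem gammaIso_t2 (n : NAff hU M) :
    app ((pullback (Spec.map (f.appLE U V e))).map (aAff hU M).hom) ⊤
      (pbSec (Spec.map (f.appLE U V e)) ((tilde.functor Γ(X, U)).obj (NAff hU M)) ⊤ ⊤ le_top
        ((tilde.toOpen (NAff hU M) ⊤).hom n)) =
      pbSec (Spec.map (f.appLE U V e)) (M.restrict hU.fromSpec) ⊤ ⊤ le_top n := by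
  have s3 := pbSec_naturality (Spec.map (f.appLE U V e)) (aAff hU M).hom ⊤ ⊤ le_top
    ((tilde.toOpen (NAff hU M) ⊤).hom n)
  exact s3.trans (congrArg _ (gammaIso_s4 hU M n))

theorem gammaIso_t3 (x : Γ(M, U)) :
    app ((resPbIso f hU.fromSpec hV.fromSpec (Spec.map (f.appLE U V e))
        (sqAff f hU hV e)).app M).inv ⊤
      (pbSec (Spec.map (f.appLE U V e)) (M.restrict hU.fromSpec) ⊤ ⊤ le_top
        (secEquivTop hU M x)) =
      secEquivTop hV ((pullback f).obj M) (pbSec f M U V e x) := by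
  have s5 := resPb_pbSec f hU.fromSpec hV.fromSpec (Spec.map (f.appLE U V e)) (sqAff f hU hV e)
    M U ⊤ ⊤ (top_le_preimage_fromSpec hU) (top_le_preimage_fromSpec' f hV e) le_top x
  refine Eq.trans ?_ (gammaIso_s7 f hV e M x)
  refine Eq.trans (congrArg _ ?_) (app_inv_hom ((resPbIso f hU.fromSpec hV.fromSpec
    (Spec.map (f.appLE U V e)) (sqAff f hU hV e)).app M) ⊤ _)
  exact ((congrArg _ (gammaIso_s6 hU M x)).symm.trans s5.symm)

open ChangeOfRings in
theorem gammaIsoAff_one_tmul (x : Γ(M, U)) :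
    (gammaIsoAff f hU hV e M).hom.hom
        ((1 : Γ(Y, V)) ⊗ₜ[Γ(X, U), (f.appLE U V e).hom] (secEquivTop hU M x)) =
      secEquivTop hV ((pullback f).obj M) (pbSec f M U V e x) := by
  refine (gammaIso_s1 f hU hV e M _).trans ?_
  refine Eq.trans ?_ (gammaIso_t3 f hU hV e M x)
  refine Eq.trans ?_ (congrArg _ (gammaIso_t2 f hU e M _))
  refine Eq.trans ?_ (congrArg _ (congrArg _ (gammaIso_t1 f hU e M _)))
  rfl

include hU hV in
open TensorProduct ChangeOfRings in
/-- **Sections of a pullback over affine opens are a base change.**  For `f : Y ⟶ X`, affine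
opens `U`, `V` with `V ≤ f ⁻¹ᵁ U` and `M` quasi-coherent on `X`:
`Γ(Y, V) ⊗[Γ(X, U)] Γ(M, U) ≃ Γ(f^* M, V)`, `1 ⊗ x ↦ pbSec f M U V e x`. -/
theorem exists_pbSec_equiv :
    letI := (f.appLE U V e).hom.toAlgebra
    ∃ E : Γ(Y, V) ⊗[Γ(X, U)] Γ(M, U) ≃ₗ[Γ(Y, V)] Γ((pullback f).obj M, V),
      ∀ x, E (1 ⊗ₜ x) = pbSec f M U V e x := by
  let _ : Algebra Γ(X, U) Γ(Y, V) := (f.appLE U V e).hom.toAlgebra
  let e1 : Γ(Y, V) ⊗[Γ(X, U)] Γ(M, U) ≃ₗ[Γ(Y, V)] Γ(Y, V) ⊗[Γ(X, U)] (NAff hU M) :=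
    TensorProduct.AlgebraTensorModule.congr (LinearEquiv.refl Γ(Y, V) Γ(Y, V)) (secEquivTop hU M)
  let i2 := AffineDict34.extendScalarsIsoTensor (R := Γ(X, U)) Γ(Y, V) (NAff hU M)
  let e3 := (gammaIsoAff f hU hV e M).toLinearEquiv
  let e4 := (secEquivTop hV ((pullback f).obj M)).symm
  refine ⟨e1 ≪≫ₗ i2.symm.toLinearEquiv ≪≫ₗ e3 ≪≫ₗ e4, fun x => ?_⟩
  have h1 : e1 (1 ⊗ₜ x) = (1 : Γ(Y, V)) ⊗ₜ[Γ(X, U)] (secEquivTop hU M x) := by
    exact TensorProduct.AlgebraTensorModule.congr_tmul _ _ _ _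
  have h2 : i2.symm.toLinearEquiv ((1 : Γ(Y, V)) ⊗ₜ[Γ(X, U)] (secEquivTop hU M x)) =
      ((1 : Γ(Y, V)) ⊗ₜ[Γ(X, U), (f.appLE U V e).hom] (secEquivTop hU M x) :
        (ModuleCat.extendScalars (f.appLE U V e).hom).obj (NAff hU M)) := by
    have := AffineDict34.fromExtend_one_tmul (S := Γ(Y, V)) (M := NAff hU M)
      (TensorProduct.mk Γ(X, U) Γ(Y, V) (NAff hU M) 1) (secEquivTop hU M x)
    have h3 := congrArg i2.inv.hom this
    refine h3.symm.trans ?_
    exact congrFun (congrArg DFunLike.coe (congrArg ModuleCat.Hom.hom i2.hom_inv_id)) _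
  have h3 := gammaIsoAff_one_tmul f hU hV e M x
  have h12 : i2.symm.toLinearEquiv (e1 (1 ⊗ₜ x)) =
      ((1 : Γ(Y, V)) ⊗ₜ[Γ(X, U), (f.appLE U V e).hom] (secEquivTop hU M x) :
        (ModuleCat.extendScalars (f.appLE U V e).hom).obj (NAff hU M)) :=
    (congrArg _ h1).trans h2
  have h123 : e3 (i2.symm.toLinearEquiv (e1 (1 ⊗ₜ x))) =
      secEquivTop hV ((pullback f).obj M) (pbSec f M U V e x) :=
    (congrArg e3 h12).trans h3
  exact (congrArg e4 h123).trans ((secEquivTop hV ((pullback f).obj M)).symm_apply_apply _)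

end Fermat.Agent.Jac.PbSec87
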