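/-
Fermat/Agent/Jac/AffineDict87/PbRestrict.lean  (helper87) -- S25 programme, brick B1b.

Restriction to open subschemes commutes with pullback, compatibly with the canonical maps on
sections: for a commutative square `j' ≫ f = f' ≫ j` with `j`, `j'` open immersions,
`resPbIso : pullback f ⋙ restrictFunctor j' ≅ restrictFunctor j ⋙ pullback f'` and
`resPb_pbSec : Ψ (pbSec f M U₀ (j' ''ᵁ W') x) = pbSec f' (M.restrict j) W W' (x|_{j ''ᵁ W})`.
-/
import Mathlib
import Fermat.Agent.Jac.AffineDict87.PbSec

set_option autoImplicit false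
set_option linter.unusedSectionVars false

open CategoryTheory AlgebraicGeometry TopologicalSpace Opposite

universe u

noncomputable section

namespace Fermat.Agent.Jac.PbSec87

open Fermat.Agent.Jac.ModGlue88

open Scheme.Modules

variable {X Y X' Y' : Scheme.{u}} (f : Y ⟶ X) (j : X' ⟶ X) (j' : Y' ⟶ Y) (f' : Y' ⟶ X')
  [IsOpenImmersion j] [IsOpenImmersion j'] (sq : j' ≫ f = f' ≫ j)

/-- the two composite pushforwards agree. -/
def kappa : pushforward f' ⋙ pushforward j ≅ pushforward j' ⋙ pushforward f :=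
  pushforwardComp f' j ≪≫ pushforwardCongr sq.symm ≪≫ (pushforwardComp j' f).symm

/-- first adjunction -/
def adj1 : pullback f ⋙ restrictFunctor j' ⊣ pushforward j' ⋙ pushforward f :=
  (pullbackPushforwardAdjunction f).comp (restrictAdjunction j')

/-- second adjunction -/
def adj2 : restrictFunctor j ⋙ pullback f' ⊣ pushforward j' ⋙ pushforward f :=
  ((restrictAdjunction j).comp (pullbackPushforwardAdjunction f')).ofNatIsoRight (kappa f j j' f' sq)

/-- **Restriction commutes with pullback.** -/
def resPbIso : pullback f ⋙ restrictFunctor j' ≅ restrictFunctor j ⋙ pullback f' :=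
  (adj1 f j').leftAdjointUniq (adj2 f j j' f' sq)

theorem resPb_unit (M : X.Modules) :
    (adj1 f j').unit.app M ≫ (pushforward j' ⋙ pushforward f).map ((resPbIso f j j' f' sq).hom.app M) =
      (adj2 f j j' f' sq).unit.app M :=
  Adjunction.unit_leftAdjointUniq_hom_app _ _ M


include sq in
theorem kappa_le (U₀ : X.Opens) : j' ⁻¹ᵁ f ⁻¹ᵁ U₀ ≤ f' ⁻¹ᵁ j ⁻¹ᵁ U₀ := by
  rw [← Scheme.Hom.comp_preimage, ← Scheme.Hom.comp_preimage, sq]

theorem resPb_key (M : X.Modules) (U₀ : X.Opens) (x : Γ(M, U₀)) :
    app ((resPbIso f j j' f' sq).hom.app M) (j' ⁻¹ᵁ f ⁻¹ᵁ U₀)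
        (res ((pullback f).obj M) (j'.image_preimage_le (f ⁻¹ᵁ U₀)) (unitSec f M U₀ x)) =
      res ((pullback f').obj ((restrictFunctor j).obj M)) (kappa_le f j j' f' sq U₀)
        (unitSec f' ((restrictFunctor j).obj M) (j ⁻¹ᵁ U₀) (res M (j.image_preimage_le U₀) x)) := by
  have := resPb_unit f j j' f' sq M
  unfold adj1 adj2 at this
  rw [Adjunction.comp_unit_app] at this
  simp only [Adjunction.ofNatIsoRight_unit] at this
  rw [NatTrans.comp_app, Adjunction.comp_unit_app] at this
  have h2 := congrArg (fun g => (Scheme.Modules.Hom.app g U₀).hom x) this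
  exact h2

/-- **Restriction commutes with pullback, on sections.** -/
theorem resPb_pbSec (M : X.Modules) (U₀ : X.Opens) (W : X'.Opens) (W' : Y'.Opens)
    (hW : W ≤ j ⁻¹ᵁ U₀) (hW' : W' ≤ j' ⁻¹ᵁ f ⁻¹ᵁ U₀) (hWW' : W' ≤ f' ⁻¹ᵁ W) (x : Γ(M, U₀)) :
    app ((resPbIso f j j' f' sq).hom.app M) W'
        (pbSec f M U₀ (j' ''ᵁ W')
          ((j'.image_mono hW').trans (j'.image_preimage_le (f ⁻¹ᵁ U₀))) x) =
      pbSec f' ((restrictFunctor j).obj M) W W' hWW'
        (res M ((j.image_mono hW).trans (j.image_preimage_le U₀)) x) := by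
  have key := resPb_key f j j' f' sq M U₀ x
  have h2 : pbSec f M U₀ (j' ''ᵁ W')
        ((j'.image_mono hW').trans (j'.image_preimage_le (f ⁻¹ᵁ U₀))) x =
      res ((restrictFunctor j').obj ((pullback f).obj M)) hW'
        (res ((pullback f).obj M) (j'.image_preimage_le (f ⁻¹ᵁ U₀)) (unitSec f M U₀ x)) := by
    rw [pbSec_apply]
    exact (res_res ((pullback f).obj M) (j'.image_mono hW') _ _).symm
  have hΨ := app_res ((resPbIso f j j' f' sq).hom.app M) hW'
    (res ((pullback f).obj M) (j'.image_preimage_le (f ⁻¹ᵁ U₀)) (unitSec f M U₀ x))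
  have h3 : res M ((j.image_mono hW).trans (j.image_preimage_le U₀)) x =
      res ((restrictFunctor j).obj M) hW (res M (j.image_preimage_le U₀) x) :=
    (res_res M (j.image_mono hW) _ x).symm
  have h4 : res ((pullback f').obj ((restrictFunctor j).obj M)) hW'
      (res ((pullback f').obj ((restrictFunctor j).obj M)) (kappa_le f j j' f' sq U₀)
        (unitSec f' ((restrictFunctor j).obj M) (j ⁻¹ᵁ U₀) (res M (j.image_preimage_le U₀) x))) =
      pbSec f' ((restrictFunctor j).obj M) W W' hWW'
        (res M ((j.image_mono hW).trans (j.image_preimage_le U₀)) x) := by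
    have e1 := res_res ((pullback f').obj ((restrictFunctor j).obj M)) hW'
      (kappa_le f j j' f' sq U₀)
      (unitSec f' ((restrictFunctor j).obj M) (j ⁻¹ᵁ U₀) (res M (j.image_preimage_le U₀) x))
    have e2 := unitSec_res f' ((restrictFunctor j).obj M) hW (res M (j.image_preimage_le U₀) x)
    have e3 := res_res ((pullback f').obj ((restrictFunctor j).obj M)) hWW'
      (Scheme.Hom.preimage_mono f' hW)
      (unitSec f' ((restrictFunctor j).obj M) (j ⁻¹ᵁ U₀) (res M (j.image_preimage_le U₀) x))
    have e4 : pbSec f' ((restrictFunctor j).obj M) W W' hWW'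
        (res M ((j.image_mono hW).trans (j.image_preimage_le U₀)) x) =
        res ((pullback f').obj ((restrictFunctor j).obj M)) hWW'
          (unitSec f' ((restrictFunctor j).obj M) W
            (res ((restrictFunctor j).obj M) hW (res M (j.image_preimage_le U₀) x))) :=
      congrArg (pbSec f' ((restrictFunctor j).obj M) W W' hWW') h3
    exact e1.trans (e3.symm.trans ((congrArg _ e2.symm).trans e4.symm))
  exact (congrArg _ h2).trans (hΨ.trans ((congrArg _ key).trans h4))

end Fermat.Agent.Jac.PbSec87
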